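import Fermat.Agent.S41.EP.Statements
import Fermat.Agent.GAL.EigenChar.Main

/-!
# S41, end point (P-IN): from an eigenform to an integral parabolic class
-/

set_option autoImplicit false

open CongruenceSubgroup ModularForm ModularCurve ModularCurve.Period ModularFormClass
open scoped MatrixGroups
open Matrix.SpecialLinearGroup (mapGL)
open P2MW.S_ModularForm_heckeT_slash_eq_self_of_mem_Gamma0.ModularForm.HeckeSlashInvariance
open Fermat.Agent.GAL.EigenChar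

namespace Fermat.Agent.S41.EP

/-- a `ℤ`-valued additive map all of whose values are divisible by `p ≠ 0` is `p •` another one. -/
theorem exists_eq_smul_of_forall_dvd {G : Type*} [AddZeroClass G] {p : ℤ} (hp : p ≠ 0)
    (χ : G →+ ℤ) (h : ∀ g, p ∣ χ g) : ∃ χ' : G →+ ℤ, χ = p • χ' := by
  choose v hv using h
  refine ⟨{ toFun := v, map_zero' := ?_, map_add' := ?_ }, ?_⟩
  · have := hv 0
    rw [map_zero] at this
    rcases mul_eq_zero.mp this.symm with h | h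
    · exact absurd h hp
    · exact h
  · intro a b
    apply mul_left_cancel₀ hp
    rw [mul_add, ← hv, ← hv, ← hv, map_add]
  · ext g
    simp [hv g]

/-- integral transfer data exist for `T_ℓ`. -/
theorem exists_transferZ_T {N ℓ : ℕ} [NeZero ℓ] (hℓ : ℓ.Prime) (hℓN : ¬ ℓ ∣ N) (γ : Gamma0 N) :
    ∃ (σ : Equiv.Perm (OnePoint (ZMod ℓ))) (c : OnePoint (ZMod ℓ) → Gamma0 N),
      ∀ x, matT ℓ x * toMat γ = toMat (c x) * matT ℓ (σ x) := by
  obtain ⟨σ, c, h⟩ := exists_transfer_T hℓ hℓN γ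
  exact ⟨σ, c, fun x => (matT_mul_iff ℓ x (σ x) _ _).mpr (h x)⟩

/-- integral transfer data exist for `U_q`. -/
theorem exists_transferZ_U {N q : ℕ} [NeZero q] (hqN : q ∣ N) (γ : Gamma0 N) :
    ∃ (σ : Equiv.Perm (ZMod q)) (c : ZMod q → Gamma0 N),
      ∀ x, matU q x * toMat γ = toMat (c x) * matU q (σ x) := by
  obtain ⟨σ, c, h⟩ := exists_transfer_U hqN γ
  exact ⟨σ, c, fun x => (matU_mul_iff q x (σ x) _ _).mpr (h x)⟩

theorem perLat_free (N : ℕ) [NeZero N] : Module.Free ℤ (perLat N) := by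
  have : IsAddTorsionFree (Module.Dual ℂ (CuspForm (Gamma0 N) 2)) := .of_isTorsionFree ℂ _
  infer_instance

theorem inStatement : InStatement := by
  intro N p _ hp f 𝔪 hf hmax hpm S θ hS hcong
  have hpF : Fact p.Prime := ⟨hp⟩
  have hp0 : (p : ℤ) ≠ 0 := by exact_mod_cast hp.ne_zero
  let _ : Field (integralClosure ℤ ℂ ⧸ 𝔪) := Ideal.Quotient.field 𝔪
  have hchar : CharP (integralClosure ℤ ℂ ⧸ 𝔪) p := by
    rw [CharP.charP_iff_prime_eq_zero hp]
    have := Ideal.Quotient.eq_zero_iff_mem.2 hpm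
    simpa using this
  obtain ⟨ψ, hψ0, hψ⟩ := exists_perChar_mem_heckeTorsion hf hp (Ideal.Quotient.mk 𝔪)
  rw [mem_heckeTorsion_iff] at hψ
  -- lift `ψ` to `ℤ`
  have hfree := perLat_free N
  obtain ⟨ψt, hψt⟩ := Module.projective_lifting_property
    (Int.castAddHom (ZMod p)).toIntLinearMap
    (show perLat N →+ ZMod p from ψ).toIntLinearMap
    (fun x => ZMod.intCast_surjective x)
  have hlift : ∀ l : perLat N, ((ψt l : ℤ) : ZMod p) = (show perLat N →+ ZMod p from ψ) l :=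
    fun l => LinearMap.congr_fun hψt l
  set Ψ : PerChar N ℤ := PerChar.mk ψt.toAddMonoidHom with hΨ
  have hΨe : ∀ γ : Gamma0 N, ((Ψ.eval γ : ℤ) : ZMod p) = ψ.eval γ := fun γ => hlift (perL γ)
  refine ⟨PerChar.toHom Ψ, ?_, ?_, ?_⟩
  · intro γ hγ
    exact Ψ.eval_eq_zero_of_trace hγ
  · rintro ⟨x', hx'⟩
    apply hψ0
    ext γ
    rw [← hΨe, ← PerChar.toHom_apply, hx']
    simp
  · intro ℓ hℓS _ x₁ hx₁
    obtain ⟨hℓ, hℓN⟩ := hS ℓ hℓS
    apply exists_eq_smul_of_forall_dvd hp0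
    intro γ'
    obtain ⟨γ, rfl⟩ : ∃ γ : Gamma0 N, Additive.ofMul γ = γ' := ⟨Additive.toMul γ', rfl⟩
    obtain ⟨σ, c, h⟩ := exists_transfer_T hℓ hℓN γ
    have h1 := hx₁ γ σ c (fun x => (matT_mul_iff ℓ x (σ x) _ _).mpr (h x))
    have h2 := PerChar.heckeGen_smul_eval_of_not_dvd (ℓ := (⟨ℓ, hℓ⟩ : Nat.Primes)) hℓN ψ γ σ c h
    -- the eigen-relation
    obtain ⟨a, ha, ham⟩ := hcong ℓ hℓS
    have h3 : heckeGen (⟨ℓ, hℓ⟩ : Nat.Primes) - MvPolynomial.C (θ ℓ) ∈
        eigenIdeal (fun ℓ => Ideal.Quotient.mk 𝔪 (eigenCoeff hf ℓ)) := by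
      apply heckeGen_sub_mem_eigenIdeal
      have hae : a = eigenCoeff hf (⟨ℓ, hℓ⟩ : Nat.Primes) := by
        apply Subtype.ext
        rw [ha]
        exact (coe_eigenCoeff hf (⟨ℓ, hℓ⟩ : Nat.Primes)).symm
      rw [← hae]
      have := Ideal.Quotient.eq.mpr ham
      rw [this]
      simp
    have h4 := hψ _ h3
    rw [sub_smul, sub_eq_zero] at h4
    have h5 : (MvPolynomial.C (θ ℓ) : HeckeAlg) • ψ = θ ℓ • ψ := by
      rw [← MvPolynomial.algebraMap_eq, algebraMap_smul]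
    rw [h4, h5] at h2
    rw [← ZMod.intCast_zmod_eq_zero_iff_dvd]
    simp only [AddMonoidHom.sub_apply, AddMonoidHom.smul_apply, h1, PerChar.toHom_apply]
    push_cast
    simp only [hΨe]
    rw [← h2]
    have h6 : (θ ℓ • ψ).eval γ = θ ℓ • ψ.eval γ := rfl
    rw [h6, ← hΨe]
    simp

end Fermat.Agent.S41.EP
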