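import Fermat.Agent.S41.EP.Family
import Fermat.Agent.S41.EP.In

/-!
# S41: the operators `TH`, `UH` of `S41/Defs.lean` satisfy the transfer relations `IsHeckeT`,
`IsHeckeU` of `S41/EP/Defs.lean`
-/

set_option autoImplicit false

open Matrix Matrix.SpecialLinearGroup CongruenceSubgroup OnePoint
open scoped MatrixGroups
open P2MW.S_ModularForm_heckeT_slash_eq_self_of_mem_Gamma0.ModularForm.HeckeSlashInvariance

namespace Fermat.Agent.S41

noncomputable section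

variable {A : Type*} [AddCommGroup A]

/-- the family of `U_q` -/
def famU (q : ℕ) (j : ZMod q) : GL (Fin 2) ℚ := mk2 1 j.val 0 q

/-- the family of `T_l` -/
def famT (l : ℕ) (x : OnePoint (ZMod l)) : GL (Fin 2) ℚ := x.elim (mk2 l 0 0 1) (famU l)

theorem coe_famU (q : ℕ) [NeZero q] (j : ZMod q) :
    ((famU q j : GL (Fin 2) ℚ) : Matrix (Fin 2) (Fin 2) ℚ) = (EP.matU q j).map (Int.cast : ℤ → ℚ) := by
  have hq : (q : ℚ) ≠ 0 := by exact_mod_cast NeZero.ne q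
  rw [famU, coe_mk2 (by simpa using hq)]
  ext a b
  fin_cases a <;> fin_cases b <;> simp [EP.matU]

theorem coe_famT (l : ℕ) [NeZero l] (x : OnePoint (ZMod l)) :
    ((famT l x : GL (Fin 2) ℚ) : Matrix (Fin 2) (Fin 2) ℚ) = (EP.matT l x).map (Int.cast : ℤ → ℚ) := by
  induction x using OnePoint.rec with
  | infty =>
    have hl : (l : ℚ) ≠ 0 := by exact_mod_cast NeZero.ne l
    change ((mk2 l 0 0 1 : GL (Fin 2) ℚ) : Matrix (Fin 2) (Fin 2) ℚ) = _
    rw [coe_mk2 (by simpa using hl)]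
    ext a b
    fin_cases a <;> fin_cases b <;> simp
  | coe j => exact coe_famU l j

theorem coe_mapGL_rat (g : SL(2, ℤ)) :
    ((mapGL ℚ g : GL (Fin 2) ℚ) : Matrix (Fin 2) (Fin 2) ℚ) =
      (g : Matrix (Fin 2) (Fin 2) ℤ).map (Int.cast : ℤ → ℚ) := by
  ext i j
  simp

theorem map_intCast_rat_injective :
    Function.Injective (fun m : Matrix (Fin 2) (Fin 2) ℤ => m.map (Int.cast : ℤ → ℚ)) := by
  intro a b h
  ext i j
  have := congrFun (congrFun h i) j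
  simpa using this

theorem famT_mul_iff (l : ℕ) [NeZero l] (x x' : OnePoint (ZMod l)) (g g' : SL(2, ℤ)) :
    famT l x * mapGL ℚ g = mapGL ℚ g' * famT l x' ↔
      EP.matT l x * (g : Matrix (Fin 2) (Fin 2) ℤ) = (g' : Matrix (Fin 2) (Fin 2) ℤ) * EP.matT l x' := by
  rw [← Units.val_inj, Units.val_mul, Units.val_mul, coe_famT, coe_famT, coe_mapGL_rat,
    coe_mapGL_rat, ← Matrix.map_mul_intCast, ← Matrix.map_mul_intCast]
  exact map_intCast_rat_injective.eq_iff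

theorem famU_mul_iff (q : ℕ) [NeZero q] (x x' : ZMod q) (g g' : SL(2, ℤ)) :
    famU q x * mapGL ℚ g = mapGL ℚ g' * famU q x' ↔
      EP.matU q x * (g : Matrix (Fin 2) (Fin 2) ℤ) = (g' : Matrix (Fin 2) (Fin 2) ℤ) * EP.matU q x' :=
  famT_mul_iff q (x : OnePoint (ZMod q)) (x' : OnePoint (ZMod q)) g g'

variable (A)

theorem opU_eq_sum (q : ℕ) [NeZero q] : opU A q = ∑ j : ZMod q, pull A (famU q j) := by
  rw [opU, sum_range_eq_sum_zmod (fun i : ℕ => pull A (mk2 1 i 0 q))]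
  rfl

theorem opT_eq_sum (l : ℕ) [NeZero l] : opT A l = ∑ x : OnePoint (ZMod l), pull A (famT l x) := by
  rw [opT, opU_eq_sum, opB]
  exact (Fintype.sum_option (fun x : OnePoint (ZMod l) => pull A (famT l x))).symm

theorem isOp_opT {M l : ℕ} (hl : l.Prime) (hlM : ¬ l ∣ M) :
    IsOp (A := A) (Gamma0 M) (Gamma0 M) (opT A l) := by
  have : NeZero l := ⟨hl.ne_zero⟩
  rw [opT_eq_sum]
  refine isOp_sum_pull _ fun γ hγ => ?_
  obtain ⟨σ, c, h⟩ := EP.exists_transferZ_T hl hlM ⟨γ, hγ⟩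
  exact ⟨σ, c, fun x => (famT_mul_iff l x (σ x) _ _).mpr (h x)⟩

theorem isOp_opU {M q : ℕ} [NeZero q] (hqM : q ∣ M) :
    IsOp (A := A) (Gamma0 M) (Gamma0 M) (opU A q) := by
  rw [opU_eq_sum]
  refine isOp_sum_pull _ fun γ hγ => ?_
  obtain ⟨σ, c, h⟩ := EP.exists_transferZ_U hqM ⟨γ, hγ⟩
  exact ⟨σ, c, fun x => (famU_mul_iff q x (σ x) _ _).mpr (h x)⟩

variable {A}

theorem isHeckeT_TH' {M l : ℕ} [NeZero l] (hl : l.Prime) (hlM : ¬ l ∣ M) (φ : HH A M) :
    EP.IsHeckeT M l (φ : Additive (Gamma0 M) →+ A) (TH A M l φ : Additive (Gamma0 M) →+ A) := by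
  intro γ σ c h
  have h1 := isOp_opT A hl hlM
  rw [TH]
  rw [opT_eq_sum] at h1 ⊢
  exact opH_sum_pull_apply _ h1 φ γ σ c (fun x => (famT_mul_iff l x (σ x) _ _).mpr (h x))

theorem isHeckeU_UH' {M q : ℕ} [NeZero q] (hqM : q ∣ M) (φ : HH A M) :
    EP.IsHeckeU M q (φ : Additive (Gamma0 M) →+ A) (UH A M q φ : Additive (Gamma0 M) →+ A) := by
  intro γ σ c h
  have h1 := isOp_opU A hqM
  rw [UH]
  rw [opU_eq_sum] at h1 ⊢
  exact opH_sum_pull_apply _ h1 φ γ σ c (fun x => (famU_mul_iff q x (σ x) _ _).mpr (h x))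

end

end Fermat.Agent.S41
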