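import Mathlib
import Fermat.Prelude.Def_ModularCurve_PeriodMap
import Fermat.Prelude.Sol.S_ModularForm_heckeT_slash_eq_self_of_mem_Gamma0

/-!
# S41, end points: Hecke relations on `Hom(Γ₀(M), A)` in terms of transfer data

Everything is phrased with *integral matrices*, so that the identities can be cast to `ℚ`
(potentials on `OnePoint ℚ`) and to `ℝ` (the Prelude's `heckeRep`, `heckeMatrix`).
-/

set_option autoImplicit false

open CongruenceSubgroup ModularForm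
open scoped MatrixGroups
open Matrix.SpecialLinearGroup (mapGL)
open P2MW.S_ModularForm_heckeT_slash_eq_self_of_mem_Gamma0.ModularForm.HeckeSlashInvariance

namespace Fermat.Agent.S41.EP

/-- The integral matrix `[[1, j], [0, ℓ]]`. -/
def matU (ℓ : ℕ) (j : ZMod ℓ) : Matrix (Fin 2) (Fin 2) ℤ := !![1, (j.val : ℤ); 0, (ℓ : ℤ)]

/-- The integral representatives of `T_ℓ`: `∞ ↦ diag(ℓ,1)`, `j ↦ [[1, j], [0, ℓ]]`. -/
def matT (ℓ : ℕ) (x : OnePoint (ZMod ℓ)) : Matrix (Fin 2) (Fin 2) ℤ :=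
  x.elim !![(ℓ : ℤ), 0; 0, 1] (matU ℓ)

@[simp] theorem matT_infty (ℓ : ℕ) : matT ℓ OnePoint.infty = !![(ℓ : ℤ), 0; 0, 1] := rfl

@[simp] theorem matT_coe (ℓ : ℕ) (j : ZMod ℓ) : matT ℓ (j : OnePoint (ZMod ℓ)) = matU ℓ j := rfl

/-- the integral matrix of an element of `Γ₀(M)` -/
abbrev toMat {M : ℕ} (γ : Gamma0 M) : Matrix (Fin 2) (Fin 2) ℤ := ((γ : SL(2, ℤ)) : Matrix (Fin 2) (Fin 2) ℤ)

variable {A : Type*} [AddCommGroup A]

/-- `ψ = T_ℓ φ` on `Hom(Γ₀(M), A)`: the transfer formula holds for all transfer data. -/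
def IsHeckeT (M ℓ : ℕ) [NeZero ℓ] (φ ψ : Additive (Gamma0 M) →+ A) : Prop :=
  ∀ (γ : Gamma0 M) (σ : Equiv.Perm (OnePoint (ZMod ℓ))) (c : OnePoint (ZMod ℓ) → Gamma0 M),
    (∀ x, matT ℓ x * toMat γ = toMat (c x) * matT ℓ (σ x)) →
      ψ (Additive.ofMul γ) = ∑ x, φ (Additive.ofMul (c x))

/-- `ψ = U_q φ` on `Hom(Γ₀(M), A)`: the transfer formula holds for all transfer data. -/
def IsHeckeU (M q : ℕ) [NeZero q] (φ ψ : Additive (Gamma0 M) →+ A) : Prop :=
  ∀ (γ : Gamma0 M) (σ : Equiv.Perm (ZMod q)) (c : ZMod q → Gamma0 M),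
    (∀ x, matU q x * toMat γ = toMat (c x) * matU q (σ x)) →
      ψ (Additive.ofMul γ) = ∑ x, φ (Additive.ofMul (c x))

theorem mapGL_real_val (g : SL(2, ℤ)) :
    ((mapGL ℝ g : GL (Fin 2) ℝ) : Matrix (Fin 2) (Fin 2) ℝ) =
      (g : Matrix (Fin 2) (Fin 2) ℤ).map (Int.cast : ℤ → ℝ) := by
  ext i j
  simp

theorem heckeMatrix_val (q : ℕ) [NeZero q] (j : ZMod q) :
    ((heckeMatrix q j.val : GL (Fin 2) ℝ) : Matrix (Fin 2) (Fin 2) ℝ) =
      (matU q j).map (Int.cast : ℤ → ℝ) := by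
  rw [val_heckeMatrix (NeZero.ne q)]
  ext a b
  fin_cases a <;> fin_cases b <;> simp [matU]

theorem heckeRep_val (ℓ : ℕ) [NeZero ℓ] (x : OnePoint (ZMod ℓ)) :
    ((heckeRep ℓ x : GL (Fin 2) ℝ) : Matrix (Fin 2) (Fin 2) ℝ) =
      (matT ℓ x).map (Int.cast : ℤ → ℝ) := by
  induction x using OnePoint.rec with
  | infty =>
    rw [heckeRep_infty, val_heckeDiagMatrix (NeZero.ne ℓ)]
    ext a b
    fin_cases a <;> fin_cases b <;> simp
  | coe j => exact heckeMatrix_val ℓ j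

theorem map_intCast_injective :
    Function.Injective (fun m : Matrix (Fin 2) (Fin 2) ℤ => m.map (Int.cast : ℤ → ℝ)) := by
  intro a b h
  ext i j
  have := congrFun (congrFun h i) j
  simpa using this

/-- integral transfer identity `↔` real transfer identity, `T_ℓ`. -/
theorem matT_mul_iff (ℓ : ℕ) [NeZero ℓ] (x x' : OnePoint (ZMod ℓ)) (g g' : SL(2, ℤ)) :
    matT ℓ x * (g : Matrix (Fin 2) (Fin 2) ℤ) = (g' : Matrix (Fin 2) (Fin 2) ℤ) * matT ℓ x' ↔
      heckeRep ℓ x * mapGL ℝ g = mapGL ℝ g' * heckeRep ℓ x' := by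
  rw [← Units.val_inj, Units.val_mul, Units.val_mul, heckeRep_val, heckeRep_val, mapGL_real_val,
    mapGL_real_val, ← Matrix.map_mul_intCast, ← Matrix.map_mul_intCast]
  exact map_intCast_injective.eq_iff.symm

/-- integral transfer identity `↔` real transfer identity, `U_q`. -/
theorem matU_mul_iff (q : ℕ) [NeZero q] (x x' : ZMod q) (g g' : SL(2, ℤ)) :
    matU q x * (g : Matrix (Fin 2) (Fin 2) ℤ) = (g' : Matrix (Fin 2) (Fin 2) ℤ) * matU q x' ↔
      heckeMatrix q x.val * mapGL ℝ g = mapGL ℝ g' * heckeMatrix q x'.val :=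
  matT_mul_iff q (x : OnePoint (ZMod q)) (x' : OnePoint (ZMod q)) g g'

end Fermat.Agent.S41.EP
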