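import Fermat.Agent.S41.Defs

/-!
# S41: `H Γ A` is the module of parabolic homomorphisms
-/

set_option autoImplicit false

open Matrix Matrix.SpecialLinearGroup CongruenceSubgroup OnePoint ModularCurve.Period
open scoped MatrixGroups

namespace Fermat.Agent.S41

noncomputable section

theorem mapGL_rat_apply (g : SL(2, ℤ)) (i j : Fin 2) :
    (mapGL ℚ g : GL (Fin 2) ℚ) i j = (g i j : ℚ) := by
  simp [mapGL_coe_matrix]

theorem sl2_det_eq (g : SL(2, ℤ)) : g 0 0 * g 1 1 - g 0 1 * g 1 0 = 1 := by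
  have := g.det_coe
  rwa [Matrix.det_fin_two] at this

/-- an element of trace `±2` fixes a cusp. -/
theorem exists_fixed_cusp (g : SL(2, ℤ))
    (h : (g : Matrix (Fin 2) (Fin 2) ℤ).trace ^ 2 = 4) :
    ∃ s : OnePoint ℚ, mapGL ℚ g • s = s := by
  rw [Matrix.trace_fin_two] at h
  have hdet := sl2_det_eq g
  by_cases hc : g 1 0 = 0
  · refine ⟨∞, ?_⟩
    rw [smul_infty_eq_ite, mapGL_rat_apply, if_pos (by exact_mod_cast hc)]
  · have hc' : (g 1 0 : ℚ) ≠ 0 := by exact_mod_cast hc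
    have hQ : ((g 0 0 : ℚ) + g 1 1) ^ 2 = 4 := by exact_mod_cast h
    have hdQ : (g 0 0 : ℚ) * g 1 1 - g 0 1 * g 1 0 = 1 := by exact_mod_cast hdet
    refine ⟨((((g 0 0 : ℚ) - g 1 1) / (2 * g 1 0) : ℚ) : OnePoint ℚ), ?_⟩
    rw [smul_some_eq_ite]
    simp only [mapGL_rat_apply]
    have h1 : (g 1 0 : ℚ) * (((g 0 0 : ℚ) - g 1 1) / (2 * g 1 0)) + g 1 1 =
        ((g 0 0 : ℚ) + g 1 1) / 2 := by
      field_simp
      ring
    have h2 : ((g 0 0 : ℚ) + g 1 1) / 2 ≠ 0 := by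
      intro h0
      have : ((g 0 0 : ℚ) + g 1 1) = 0 := by linarith
      rw [this] at hQ
      norm_num at hQ
    rw [h1, if_neg h2]
    congr 1
    rw [div_eq_iff h2]
    field_simp
    linear_combination (1 : ℚ) * hQ - 4 * hdQ

/-- an element fixing a cusp has trace `±2`. -/
theorem trace_sq_of_fixed_cusp (g : SL(2, ℤ)) (s : OnePoint ℚ) (h : mapGL ℚ g • s = s) :
    (g : Matrix (Fin 2) (Fin 2) ℤ).trace ^ 2 = 4 := by
  obtain ⟨k, rfl⟩ := exists_mem_SL2 ℤ s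
  set e : SL(2, ℤ) := k⁻¹ * g * k with he
  have h1 : mapGL ℚ e • (∞ : OnePoint ℚ) = ∞ := by
    rw [he, map_mul, map_mul, mul_smul, mul_smul, h, ← mul_smul, ← map_mul, inv_mul_cancel, map_one,
      one_smul]
  have h2 : e 1 0 = 0 := by
    rw [smul_infty_eq_ite, mapGL_rat_apply] at h1
    by_contra hne
    rw [if_neg (by exact_mod_cast hne)] at h1
    exact OnePoint.coe_ne_infty _ h1
  have h3 := sl2_det_eq e
  rw [h2, mul_zero, sub_zero] at h3
  have htr : (g : Matrix (Fin 2) (Fin 2) ℤ).trace = (e : Matrix (Fin 2) (Fin 2) ℤ).trace := by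
    rw [he, coe_mul, Matrix.trace_mul_comm, ← coe_mul, mul_inv_cancel_left]
  rw [htr, Matrix.trace_fin_two]
  rcases Int.eq_one_or_neg_one_of_mul_eq_one' h3 with ⟨ha, hd⟩ | ⟨ha, hd⟩
  · rw [ha, hd]; norm_num
  · rw [ha, hd]; norm_num

variable {Γ : Subgroup SL(2, ℤ)} {A : Type*} [AddCommGroup A]

/-- the orbit relation of `Γ` on the cusps -/
def cuspSetoid (Γ : Subgroup SL(2, ℤ)) : Setoid (OnePoint ℚ) where
  r s t := ∃ γ : Γ, mapGL ℚ (γ : SL(2, ℤ)) • s = t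
  iseqv :=
    { refl := fun s => ⟨1, by simp⟩
      symm := by
        rintro s t ⟨γ, rfl⟩
        exact ⟨γ⁻¹, by rw [← mul_smul, ← map_mul]; simp⟩
      trans := by
        rintro s t r ⟨γ, rfl⟩ ⟨δ, rfl⟩
        exact ⟨δ * γ, by rw [← mul_smul, ← map_mul]; rfl⟩ }

theorem exists_symb_of_parabolic (φ : Additive Γ →+ A) (hφ : IsParabolicHom Γ φ) :
    ∃ u : OnePoint ℚ → A, ∀ (γ : Γ) (s : OnePoint ℚ),
      u (mapGL ℚ (γ : SL(2, ℤ)) • s) = u s + φ (Additive.ofMul γ) := by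
  classical
  let r : OnePoint ℚ → OnePoint ℚ := fun s => (Quotient.mk (cuspSetoid Γ) s).out
  have hr : ∀ s, ∃ γ : Γ, mapGL ℚ (γ : SL(2, ℤ)) • r s = s := fun s =>
    Quotient.exact (Quotient.out_eq (Quotient.mk (cuspSetoid Γ) s))
  choose g hg using hr
  have hrγ : ∀ (γ : Γ) (s : OnePoint ℚ), r (mapGL ℚ (γ : SL(2, ℤ)) • s) = r s := by
    intro γ s
    have : Quotient.mk (cuspSetoid Γ) (mapGL ℚ (γ : SL(2, ℤ)) • s) = Quotient.mk (cuspSetoid Γ) s :=
      Quotient.sound ((cuspSetoid Γ).symm ⟨γ, rfl⟩)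
    simp only [r, this]
  refine ⟨fun s => φ (Additive.ofMul (g s)), fun γ s => ?_⟩
  set s' := mapGL ℚ (γ : SL(2, ℤ)) • s with hs'
  have hfix : mapGL ℚ (((g s')⁻¹ * γ * g s : Γ) : SL(2, ℤ)) • r s = r s := by
    have h1 := hg s'
    rw [hrγ γ s] at h1
    simp only [Subgroup.coe_mul, Subgroup.coe_inv, map_mul, map_inv, mul_smul]
    rw [hg s, ← hs', inv_smul_eq_iff, h1]
  have h0 := hφ _ (trace_sq_of_fixed_cusp _ _ hfix)
  rw [ofMul_mul, ofMul_mul, ofMul_inv, map_add, map_add, map_neg] at h0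
  have : φ (Additive.ofMul (g s')) = φ (Additive.ofMul γ) + φ (Additive.ofMul (g s)) := by
    have h2 := congrArg (fun z => φ (Additive.ofMul (g s')) + z) h0
    simp only [add_zero] at h2
    rw [← h2]
    abel
  change φ (Additive.ofMul (g s')) = φ (Additive.ofMul (g s)) + φ (Additive.ofMul γ)
  rw [this, add_comm]

theorem mem_H_iff' (φ : Additive Γ →+ A) : φ ∈ H Γ A ↔ IsParabolicHom Γ φ := by
  constructor
  · rintro ⟨u, rfl⟩ γ hγ
    obtain ⟨s, hs⟩ := exists_fixed_cusp _ hγ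
    have := bd_apply u γ s
    rw [hs, sub_self] at this
    exact this
  · intro hφ
    obtain ⟨u, hu⟩ := exists_symb_of_parabolic φ hφ
    have hus : u ∈ Symb Γ A := by
      intro γ hγ s t
      rw [hu ⟨γ, hγ⟩ s, hu ⟨γ, hγ⟩ t]
      abel
    refine ⟨⟨u, hus⟩, ?_⟩
    refine AddMonoidHom.ext fun γ => ?_
    have := bd_apply ⟨u, hus⟩ (Additive.toMul γ) ∞
    change _ = u _ - u ∞ at this
    rw [hu, add_sub_cancel_left] at this
    exact this

theorem H_eq_parabolicHoms : H Γ A = parabolicHoms ℤ Γ A := by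
  ext φ
  exact mem_H_iff' φ

end

end Fermat.Agent.S41
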