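import Mathlib
import Fermat.Agent.S49.Algebra

/-!
# S41, end points: Deligne–Serre lifting for a lattice in a complex vector space
-/

set_option autoImplicit false

namespace Fermat.Agent.S41.EP

/-- **Deligne–Serre lifting for a lattice.**  `𝕋` a commutative ring, finite over `ℤ`, acting on a
complex vector space `V`; `L ⊆ V` an additive subgroup, `v₀ ∈ L ∖ pL`; `t i ∈ 𝕋` preserve `L` and
`t i v₀ ≡ θ i v₀ mod pL`.  Then there is an eigenvector `v ≠ 0` in the complex span of `L` whose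
eigenvalues are algebraic integers congruent to `θ i` modulo a maximal ideal containing `p`. -/
theorem exists_eigenvector_of_lattice {V : Type*} [AddCommGroup V] [Module ℂ V] {𝕋 : Type*}
    [CommRing 𝕋] [Module.Finite ℤ 𝕋] (ρ : 𝕋 →+* Module.End ℂ V) (L : AddSubgroup V) {p : ℕ}
    (v₀ : V) (hv₀ : v₀ ∈ L) (hv₀p : ¬ ∃ v' ∈ L, v₀ = (p : ℤ) • v')
    {ι : Type*} (t : ι → 𝕋) (θ : ι → ℤ) (hstab : ∀ i, ∀ v ∈ L, ρ (t i) v ∈ L)
    (heig : ∀ i, ∃ v' ∈ L, ρ (t i) v₀ - θ i • v₀ = (p : ℤ) • v') :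
    ∃ (v : V) (𝔪' : Ideal (integralClosure ℤ ℂ)) (a : ι → integralClosure ℤ ℂ),
      v ∈ Submodule.span ℂ (L : Set V) ∧ v ≠ 0 ∧ 𝔪'.IsMaximal ∧
      (p : integralClosure ℤ ℂ) ∈ 𝔪' ∧
      ∀ i, ρ (t i) v = ((a i : integralClosure ℤ ℂ) : ℂ) • v ∧
        a i - ((θ i : ℤ) : integralClosure ℤ ℂ) ∈ 𝔪' := by
  classical
  -- the subring preserving `L`
  let R' : Subring 𝕋 :=
    { carrier := {s | ∀ v ∈ L, ρ s v ∈ L}
      mul_mem' := fun {a b} ha hb v hv => by
        rw [map_mul, Module.End.mul_apply]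
        exact ha _ (hb v hv)
      one_mem' := fun v hv => by rw [map_one]; exact hv
      add_mem' := fun {a b} ha hb v hv => by
        rw [map_add, LinearMap.add_apply]
        exact L.add_mem (ha v hv) (hb v hv)
      zero_mem' := fun v _ => by rw [map_zero]; exact L.zero_mem
      neg_mem' := fun {a} ha v hv => by
        rw [map_neg, LinearMap.neg_apply]
        exact L.neg_mem (ha v hv) }
  have hR' : ∀ (s : R') (v : V), v ∈ L → ρ s v ∈ L := fun s v hv => s.2 v hv
  have hfinR' : Module.Finite ℤ R' :=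
    Module.Finite.of_injective R'.subtype.toIntAlgHom.toLinearMap Subtype.val_injective
  set W : Submodule ℂ V := Submodule.span ℂ (L : Set V) with hWdef
  have hW : ∀ (s : R'), ∀ w ∈ W, ρ s w ∈ W := by
    intro s w hw
    induction hw using Submodule.span_induction with
    | mem x hx => exact Submodule.subset_span (hR' s x hx)
    | zero => rw [map_zero]; exact W.zero_mem
    | add x y _ _ hx hy => rw [map_add]; exact W.add_mem hx hy
    | smul c x _ hx => rw [map_smul]; exact W.smul_mem c hx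
  let φ' : R' →+* Module.End ℂ W :=
    { toFun := fun s => (ρ s).restrict (hW s)
      map_one' := by
        ext w
        simp
      map_mul' := fun a b => by
        ext w
        simp
      map_zero' := by
        ext w
        simp
      map_add' := fun a b => by
        ext w
        simp }
  have hφ' : ∀ (s : R') (w : W), ((φ' s w : W) : V) = ρ s w := fun _ _ => rfl
  let I' : Ideal R' :=
    { carrier := {s | ∃ v' ∈ L, ρ s v₀ = (p : ℤ) • v'}
      add_mem' := by
        rintro a b ⟨va, hva, ha⟩ ⟨vb, hvb, hb⟩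
        refine ⟨va + vb, L.add_mem hva hvb, ?_⟩
        rw [Subring.coe_add, map_add, LinearMap.add_apply, ha, hb, smul_add]
      zero_mem' := ⟨0, L.zero_mem, by simp⟩
      smul_mem' := by
        rintro c a ⟨va, hva, ha⟩
        refine ⟨ρ c va, hR' c va hva, ?_⟩
        rw [smul_eq_mul, Subring.coe_mul, map_mul, Module.End.mul_apply, ha, map_zsmul] }
  have hI'mem : ∀ s : R', s ∈ I' ↔ ∃ v' ∈ L, ρ s v₀ = (p : ℤ) • v' := fun _ => Iff.rfl
  have hker : RingHom.ker φ' ≤ I' := by
    intro s hs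
    rw [RingHom.mem_ker] at hs
    refine ⟨0, L.zero_mem, ?_⟩
    have := congrArg Subtype.val (LinearMap.congr_fun hs ⟨v₀, Submodule.subset_span hv₀⟩)
    rw [hφ'] at this
    simpa using this
  have hI'top : I' ≠ ⊤ := by
    intro h
    have h1 : (1 : R') ∈ I' := by rw [h]; trivial
    obtain ⟨v', hv', h2⟩ := h1
    apply hv₀p
    refine ⟨v', hv', ?_⟩
    rw [← h2]
    simp
  let R := R' ⧸ RingHom.ker φ'
  let φ : R →+* Module.End ℂ W := RingHom.kerLift φ'
  have hφ : Function.Injective φ := RingHom.kerLift_injective φ'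
  have hfinR : Module.Finite ℤ R :=
    Module.Finite.of_surjective (Ideal.Quotient.mkₐ ℤ (RingHom.ker φ')).toLinearMap
      Ideal.Quotient.mk_surjective
  let I : Ideal R := I'.map (Ideal.Quotient.mk (RingHom.ker φ'))
  have hI : I ≠ ⊤ := by
    intro h
    apply hI'top
    have h1 := Ideal.comap_map_of_surjective (Ideal.Quotient.mk (RingHom.ker φ'))
      Ideal.Quotient.mk_surjective I'
    have h2 : Ideal.comap (Ideal.Quotient.mk (RingHom.ker φ')) ⊥ = RingHom.ker φ' := by
      rw [← RingHom.ker_eq_comap_bot, Ideal.mk_ker]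
    rw [h2, sup_eq_left.mpr hker] at h1
    rw [← h1]
    change Ideal.comap _ I = ⊤
    rw [h, Ideal.comap_top]
  obtain ⟨v, μ, 𝔪', hv, hmax, heigv, hμ⟩ := S49.exists_eigenvector_lift φ hφ I hI
  have hmk : ∀ s : R', s ∈ I' → μ (Ideal.Quotient.mk _ s) ∈ 𝔪' :=
    fun s hs => hμ _ (Ideal.mem_map_of_mem _ hs)
  refine ⟨v, 𝔪', fun i => μ (Ideal.Quotient.mk _ ⟨t i, hstab i⟩), v.2,
    fun h => hv (Subtype.ext h), hmax, ?_, fun i => ⟨?_, ?_⟩⟩
  · have h1 : ((p : ℕ) : R') ∈ I' := by
      refine ⟨v₀, hv₀, ?_⟩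
      simp [Nat.cast_smul_eq_nsmul]
    have h2 := hmk _ h1
    simpa using h2
  · have h1 := congrArg Subtype.val (heigv (Ideal.Quotient.mk _ ⟨t i, hstab i⟩))
    exact h1
  · have h1 : (⟨t i, hstab i⟩ - ((θ i : ℤ) : R') : R') ∈ I' := by
      obtain ⟨v', hv', h2⟩ := heig i
      refine ⟨v', hv', ?_⟩
      rw [← h2]
      simp [Int.cast_smul_eq_zsmul]
    have h2 := hmk _ h1
    simpa using h2

end Fermat.Agent.S41.EP
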