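import Fermat.Agent.S41.EP.In
import Fermat.Agent.S41.EP.LatticeDS
import Fermat.Agent.S21
import Fermat.Agent.SS.Old

/-!
# S41, end point (P-OUT): from a lattice of integral parabolic classes to an eigenform
-/

set_option autoImplicit false

open CongruenceSubgroup ModularForm ModularCurve ModularCurve.Period ModularFormClass
open scoped MatrixGroups
open Matrix.SpecialLinearGroup (mapGL)
open P2MW.S_ModularForm_heckeT_slash_eq_self_of_mem_Gamma0.ModularForm.HeckeSlashInvariance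
open Fermat.Agent.GAL.EigenChar Fermat.Agent.S49

namespace Fermat.Agent.S41.EP

noncomputable section

/-- complexification of an integral class -/
def toC {M : ℕ} : (Additive (Gamma0 M) →+ ℤ) →+ (Additive (Gamma0 M) →+ ℂ) :=
  AddMonoidHom.compHom (Int.castAddHom ℂ)

@[simp] theorem toC_apply {M : ℕ} (y : Additive (Gamma0 M) →+ ℤ) (γ : Additive (Gamma0 M)) :
    toC y γ = ((y γ : ℤ) : ℂ) := rfl

theorem toC_injective {M : ℕ} : Function.Injective (toC (M := M)) := by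
  intro a b h
  refine AddMonoidHom.ext fun γ => ?_
  have := DFunLike.congr_fun h γ
  simpa using this

theorem toC_mem_range {M : ℕ} [NeZero M] {y : Additive (Gamma0 M) →+ ℤ}
    (hy : IsParabolicHom (Gamma0 M) y) : ∃ v, periodHomPair M v = toC y := by
  have h : toC y ∈ parabolicHoms ℂ (Gamma0 M) ℂ := by
    intro γ hγ
    rw [toC_apply, hy γ hγ, Int.cast_zero]
  rw [← (S21.result M).2] at h
  exact h

theorem pair_heckeT_of_isHeckeT {M ℓ : ℕ} [NeZero M] [NeZero ℓ] (hℓ : ℓ.Prime) (hℓM : ¬ ℓ ∣ M)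
    (v : CuspForm (Gamma0 M) 2 × CuspForm (Gamma0 M) 2) (y y' : Additive (Gamma0 M) →+ ℤ)
    (hv : periodHomPair M v = toC y) (h : IsHeckeT M ℓ y y') :
    periodHomPair M (CuspForm.heckeTLin 2 hℓ hℓM v.1, CuspForm.heckeTLin 2 hℓ hℓM v.2)
      = toC y' := by
  refine AddMonoidHom.ext fun γ' => ?_
  obtain ⟨γ, rfl⟩ : ∃ γ : Gamma0 M, Additive.ofMul γ = γ' := ⟨Additive.toMul γ', rfl⟩
  obtain ⟨σ, c, hc⟩ := exists_transfer_T hℓ hℓM γ
  rw [S16.periodHomPair_heckeT hℓ hℓM v.1 v.2 γ σ c hc, Prod.mk.eta, hv, toC_apply,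
    h γ σ c (fun x => (matT_mul_iff ℓ x (σ x) _ _).mpr (hc x))]
  simp

theorem pair_heckeU_of_isHeckeU {M q : ℕ} [NeZero M] [NeZero q] (hqM : q ∣ M)
    (v : CuspForm (Gamma0 M) 2 × CuspForm (Gamma0 M) 2) (y y' : Additive (Gamma0 M) →+ ℤ)
    (hv : periodHomPair M v = toC y) (h : IsHeckeU M q y y') :
    periodHomPair M (CuspForm.heckeULin 2 hqM v.1, CuspForm.heckeULin 2 hqM v.2)
      = toC y' := by
  refine AddMonoidHom.ext fun γ' => ?_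
  obtain ⟨γ, rfl⟩ : ∃ γ : Gamma0 M, Additive.ofMul γ = γ' := ⟨Additive.toMul γ', rfl⟩
  obtain ⟨σ, c, hc⟩ := exists_transfer_U hqM γ
  rw [S16.periodHomPair_heckeU hqM v.1 v.2 γ σ c hc, Prod.mk.eta, hv, toC_apply,
    h γ σ c (fun x => (matU_mul_iff q x (σ x) _ _).mpr (hc x))]
  simp


/-- A simultaneous eigenvector of the full Hecke algebra can be normalised (variant of
`SS.exists_normalizedEigenform_of_eigenvector` which remembers the form). -/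
theorem isNormalizedEigenform_smul_of_eigenvector {N : ℕ} [NeZero N] (v : CuspForm (Gamma0 N) 2)
    (hv : v ≠ 0) (μ : CuspForm.heckeAlgebra N 2 ∅ → ℂ)
    (hveig : ∀ t : CuspForm.heckeAlgebra N 2 ∅,
      (t : Module.End ℂ (CuspForm (Gamma0 N) 2)) v = μ t • v) :
    ((qCoeff v 1)⁻¹ • v).IsNormalizedEigenform := by
  let e : ℕ → ℂ := fun ℓ => if ℓ ∣ N then 0 else (ℓ : ℂ)
  have hT : ∀ (ℓ : ℕ) (hℓ : ℓ.Prime) (hℓN : ¬ ℓ ∣ N) (n : ℕ),
      qCoeff v (ℓ * n) + e ℓ * (if ℓ ∣ n then qCoeff v (n / ℓ) else 0) =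
        μ (CuspForm.heckeAlgebra.T hℓ hℓN (Set.notMem_empty _)) * qCoeff v n := by
    intro ℓ hℓ hℓN n
    have h1 := congrArg (fun g : CuspForm (Gamma0 N) 2 => qCoeff g n)
      (hveig (CuspForm.heckeAlgebra.T hℓ hℓN (Set.notMem_empty _)))
    rw [qCoeff_smul] at h1
    change qCoeff (CuspForm.heckeTLin 2 hℓ hℓN v) n = _ at h1
    rw [qCoeff_heckeTLin] at h1
    have hz : ((ℓ : ℂ) ^ ((2 : ℤ) - 1)) = ℓ := by norm_num
    rw [hz] at h1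
    rw [← h1, mul_comm ℓ n]
    simp only [e, if_neg hℓN]
    split_ifs <;> simp
  have hU : ∀ (ℓ : ℕ) (hℓ : ℓ.Prime) (hℓN : ℓ ∣ N) (n : ℕ),
      qCoeff v (ℓ * n) + e ℓ * (if ℓ ∣ n then qCoeff v (n / ℓ) else 0) =
        μ (CuspForm.heckeAlgebra.U hℓ hℓN (Set.notMem_empty _)) * qCoeff v n := by
    intro ℓ hℓ hℓN n
    have h1 := congrArg (fun g : CuspForm (Gamma0 N) 2 => qCoeff g n)
      (hveig (CuspForm.heckeAlgebra.U hℓ hℓN (Set.notMem_empty _)))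
    rw [qCoeff_smul] at h1
    change qCoeff (CuspForm.heckeULin 2 hℓN v) n = _ at h1
    rw [qCoeff_heckeULin hℓ.ne_zero] at h1
    rw [← h1, mul_comm ℓ n]
    simp only [e, if_pos hℓN]
    simp
  have hrec : ∀ ℓ : ℕ, ℓ.Prime → ∃ lam : ℂ, ∀ n : ℕ,
      qCoeff v (ℓ * n) + e ℓ * (if ℓ ∣ n then qCoeff v (n / ℓ) else 0) = lam * qCoeff v n := by
    intro ℓ hℓ
    by_cases hℓN : ℓ ∣ N
    · exact ⟨_, hU ℓ hℓ hℓN⟩
    · exact ⟨_, hT ℓ hℓ hℓN⟩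
  have hc1 : qCoeff v 1 ≠ 0 := by
    intro h1
    exact hv (eq_zero_of_qCoeff v (coeff_eq_zero_of_one hrec (qCoeff_zero_index v) h1))
  have hb : ∀ n, qCoeff (⇑((qCoeff v 1)⁻¹ • v)) n = (qCoeff v 1)⁻¹ * qCoeff v n :=
    fun n => qCoeff_smul _ _ _
  have hb1 : qCoeff (⇑((qCoeff v 1)⁻¹ • v)) 1 = 1 := by
    rw [hb, inv_mul_cancel₀ hc1]
  have hlamEq : ∀ (ℓ : ℕ) (hℓ : ℓ.Prime) (lam : ℂ), (∀ n : ℕ,
      qCoeff v (ℓ * n) + e ℓ * (if ℓ ∣ n then qCoeff v (n / ℓ) else 0) = lam * qCoeff v n) →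
      qCoeff (⇑((qCoeff v 1)⁻¹ • v)) ℓ = lam := by
    intro ℓ hℓ lam hlam
    have h1 := hlam 1
    rw [if_neg (fun hd => hℓ.one_lt.ne' (Nat.dvd_one.mp hd)), mul_zero, add_zero, mul_one] at h1
    rw [hb, h1]
    field_simp
  have hEig : FormalHecke.IsEigensystem e (fun n => qCoeff (⇑((qCoeff v 1)⁻¹ • v)) n) := by
    refine ⟨hb1, ?_⟩
    intro ℓ hℓ n
    obtain ⟨lam, hlam⟩ := hrec ℓ hℓ
    simp only
    rw [hlamEq ℓ hℓ lam hlam]
    have hn := hlam n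
    simp only [hb]
    split_ifs at hn ⊢ with hd
    · linear_combination (qCoeff v 1)⁻¹ * hn
    · linear_combination (qCoeff v 1)⁻¹ * hn
  obtain ⟨-, hmul, hpow⟩ := isRecursive_of_isEigensystem hEig
  refine ⟨hb1, hmul, ?_, ?_⟩
  · intro p r hp hpN
    have := hpow p r hp
    simpa only [e, if_neg hpN] using this
  · intro p r hp hpN
    have := hpow p r hp
    simpa only [e, if_pos hpN, zero_mul, sub_zero] using this

/-- From a nonzero cusp form which is an eigenvector of the `T_ℓ`, `ℓ ∈ S`, and is fixed by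
`U_q ^ 2`, to a normalised eigenform with the same properties. -/
theorem exists_normalizedEigenform_of_partial {M q : ℕ} [NeZero M] (hq : q.Prime) (hqM : q ∣ M)
    (S : Set ℕ) (hS : ∀ ℓ ∈ S, ℓ.Prime ∧ ¬ ℓ ∣ M) (a : ℕ → ℂ) (w₀ : CuspForm (Gamma0 M) 2)
    (hw₀ : w₀ ≠ 0)
    (hT : ∀ (ℓ : ℕ) (hℓ : ℓ ∈ S), CuspForm.heckeTLin 2 (hS ℓ hℓ).1 (hS ℓ hℓ).2 w₀ = a ℓ • w₀)
    (hU : CuspForm.heckeULin 2 hqM (CuspForm.heckeULin 2 hqM w₀) = w₀) :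
    ∃ g : CuspForm (Gamma0 M) 2, g.IsNormalizedEigenform ∧ (∀ ℓ ∈ S, qCoeff g ℓ = a ℓ) ∧
      qCoeff g q ^ 2 = 1 := by
  classical
  have hfinT : Module.Finite ℤ (CuspForm.heckeAlgebra M 2 ∅) := Fermat.Agent.S22.result M 2 ∅
  let W : Submodule ℂ (CuspForm (Gamma0 M) 2) :=
    { carrier := {v | (∀ (ℓ : ℕ) (hℓ : ℓ ∈ S),
          CuspForm.heckeTLin 2 (hS ℓ hℓ).1 (hS ℓ hℓ).2 v = a ℓ • v) ∧
          CuspForm.heckeULin 2 hqM (CuspForm.heckeULin 2 hqM v) = v}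
      zero_mem' := ⟨fun ℓ hℓ => by simp, by simp⟩
      add_mem' := fun {x y} hx hy => ⟨fun ℓ hℓ => by rw [map_add, hx.1 ℓ hℓ, hy.1 ℓ hℓ, smul_add],
        by rw [map_add, map_add, hx.2, hy.2]⟩
      smul_mem' := fun c x hx => ⟨fun ℓ hℓ => by rw [map_smul, hx.1 ℓ hℓ, smul_comm],
        by rw [map_smul, map_smul, hx.2]⟩ }
  have hstab : ∀ (s : CuspForm.heckeAlgebra M 2 ∅), ∀ v ∈ W,
      (s : Module.End ℂ (CuspForm (Gamma0 M) 2)) v ∈ W := by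
    intro s v hv
    refine ⟨fun ℓ hℓ => ?_, ?_⟩
    · have hc := congrArg Subtype.val
        (mul_comm (CuspForm.heckeAlgebra.T (hS ℓ hℓ).1 (hS ℓ hℓ).2 (Set.notMem_empty _)) s)
      have h1 := LinearMap.congr_fun hc v
      change CuspForm.heckeTLin 2 (hS ℓ hℓ).1 (hS ℓ hℓ).2 (s.1 v) =
        s.1 (CuspForm.heckeTLin 2 (hS ℓ hℓ).1 (hS ℓ hℓ).2 v) at h1
      rw [h1, hv.1 ℓ hℓ, map_smul]
    · have hc := congrArg Subtype.val
        (mul_comm (CuspForm.heckeAlgebra.U hq hqM (Set.notMem_empty _)) s)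
      have h1 : ∀ v, CuspForm.heckeULin 2 hqM (s.1 v) = s.1 (CuspForm.heckeULin 2 hqM v) :=
        fun v => LinearMap.congr_fun hc v
      rw [h1, h1, hv.2]
  let φW : CuspForm.heckeAlgebra M 2 ∅ →+* Module.End ℂ W :=
    { toFun := fun s => (s : Module.End ℂ (CuspForm (Gamma0 M) 2)).restrict (hstab s)
      map_one' := by ext; rfl
      map_mul' := fun s s' => by ext; rfl
      map_zero' := by ext; rfl
      map_add' := fun s s' => by ext; rfl }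
  obtain ⟨w, μ, hw, hweig, -⟩ := exists_common_eigenvector φW (⟨w₀, hT, hU⟩ : W)
    (fun h => hw₀ (congrArg Subtype.val h))
  have hw' : (w : CuspForm (Gamma0 M) 2) ≠ 0 := fun h => hw (Subtype.ext h)
  have hweig' : ∀ t : CuspForm.heckeAlgebra M 2 ∅,
      (t : Module.End ℂ (CuspForm (Gamma0 M) 2)) (w : CuspForm (Gamma0 M) 2)
        = μ t • (w : CuspForm (Gamma0 M) 2) := fun t => congrArg Subtype.val (hweig t)
  have hg := isNormalizedEigenform_smul_of_eigenvector (w : CuspForm (Gamma0 M) 2) hw' μ hweig'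
  set g : CuspForm (Gamma0 M) 2 := (qCoeff (w : CuspForm (Gamma0 M) 2) 1)⁻¹ •
    (w : CuspForm (Gamma0 M) 2) with hgdef
  have hgW : g ∈ W := W.smul_mem _ w.2
  have hg0 : g ≠ 0 := ne_zero_of_eigen hg
  refine ⟨g, hg, fun ℓ hℓ => ?_, ?_⟩
  · have h1 := hgW.1 ℓ hℓ
    rw [heckeTLin_eigen hg] at h1
    exact smul_left_injective ℂ hg0 h1
  · have h1 := hgW.2
    rw [heckeULin_eigen hg hq hqM, map_smul, heckeULin_eigen hg hq hqM, smul_smul] at h1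
    have h2 : (qCoeff g q * qCoeff g q) • g = (1 : ℂ) • g := by rw [h1, one_smul]
    have h3 := smul_left_injective ℂ hg0 h2
    rw [pow_two]
    exact h3


/-- the diagonal action of the Hecke algebra on pairs of cusp forms -/
def pairAct (M : ℕ) [NeZero M] : CuspForm.heckeAlgebra M 2 ∅ →+*
    Module.End ℂ (CuspForm (Gamma0 M) 2 × CuspForm (Gamma0 M) 2) where
  toFun t := LinearMap.prodMap t.1 t.1
  map_one' := by ext <;> simp
  map_mul' a b := by ext <;> simp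
  map_zero' := by ext <;> simp
  map_add' a b := by ext <;> simp

theorem pairAct_apply (M : ℕ) [NeZero M] (t : CuspForm.heckeAlgebra M 2 ∅)
    (v : CuspForm (Gamma0 M) 2 × CuspForm (Gamma0 M) 2) :
    pairAct M t v = (t.1 v.1, t.1 v.2) := rfl

theorem outStatement : OutStatement := by
  intro M p q _ _ hp hq hqM S θ hS Λ hpar hT hU y hy hyp hyeig
  classical
  have hfinT : Module.Finite ℤ (CuspForm.heckeAlgebra M 2 ∅) := Fermat.Agent.S22.result M 2 ∅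
  have hinj := (S21.result M).1
  have hNZ : ∀ ℓ ∈ S, NeZero ℓ := fun ℓ hℓ => ⟨(hS ℓ hℓ).1.ne_zero⟩
  -- the lattice in pairs of cusp forms
  let L : AddSubgroup (CuspForm (Gamma0 M) 2 × CuspForm (Gamma0 M) 2) :=
    (Λ.map toC).comap (periodHomPair M).toAddMonoidHom
  have hL : ∀ v, v ∈ L ↔ ∃ y ∈ Λ, toC y = periodHomPair M v := fun v => Iff.rfl
  obtain ⟨v₀, hv₀⟩ := toC_mem_range (hpar y hy)
  have hv₀L : v₀ ∈ L := (hL _).mpr ⟨y, hy, hv₀.symm⟩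
  have hv₀p : ¬ ∃ v' ∈ L, v₀ = (p : ℤ) • v' := by
    rintro ⟨v', hv', h⟩
    obtain ⟨y', hy', h'⟩ := (hL _).mp hv'
    apply hyp
    refine ⟨y', hy', toC_injective ?_⟩
    rw [← hv₀, h, map_zsmul, map_zsmul, h']
  let t : S → CuspForm.heckeAlgebra M 2 ∅ := fun ℓ =>
    CuspForm.heckeAlgebra.T (hS ℓ.1 ℓ.2).1 (hS ℓ.1 ℓ.2).2 (Set.notMem_empty _)
  have hstab : ∀ i : S, ∀ v ∈ L, pairAct M (t i) v ∈ L := by
    intro i v hv
    have := hNZ i.1 i.2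
    obtain ⟨y₀, hy₀, h₀⟩ := (hL _).mp hv
    obtain ⟨y', hy', h'⟩ := hT i.1 i.2 y₀ hy₀
    exact (hL _).mpr ⟨y', hy',
      (pair_heckeT_of_isHeckeT (hS i.1 i.2).1 (hS i.1 i.2).2 v y₀ y' h₀.symm h').symm⟩
  have heig : ∀ i : S, ∃ v' ∈ L, pairAct M (t i) v₀ - θ i.1 • v₀ = (p : ℤ) • v' := by
    intro i
    have := hNZ i.1 i.2
    obtain ⟨y₁, hy₁, y₂, hy₂, h₁, h₂⟩ := hyeig i.1 i.2
    obtain ⟨v₂, hv₂⟩ := toC_mem_range (hpar y₂ hy₂)
    refine ⟨v₂, (hL _).mpr ⟨y₂, hy₂, hv₂.symm⟩, hinj ?_⟩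
    have h3 := pair_heckeT_of_isHeckeT (hS i.1 i.2).1 (hS i.1 i.2).2 v₀ y y₁ hv₀ h₁
    have h4 : periodHomPair M (pairAct M (t i) v₀) = toC y₁ := h3
    rw [map_sub, map_zsmul, map_zsmul, hv₂, hv₀, h4, ← map_zsmul, ← map_zsmul, ← map_sub, h₂]
  obtain ⟨v, 𝔪', a, hvspan, hv0, hmax, hpm, hva⟩ :=
    exists_eigenvector_of_lattice (pairAct M) L v₀ hv₀L hv₀p t (fun i => θ i.1) hstab heig
  -- `U_q ^ 2 = 1` on the span
  have hUU : ∀ w ∈ Submodule.span ℂ (L : Set (CuspForm (Gamma0 M) 2 × CuspForm (Gamma0 M) 2)),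
      CuspForm.heckeULin 2 hqM (CuspForm.heckeULin 2 hqM w.1) = w.1 ∧
      CuspForm.heckeULin 2 hqM (CuspForm.heckeULin 2 hqM w.2) = w.2 := by
    intro w hw
    induction hw using Submodule.span_induction with
    | mem x hx =>
      obtain ⟨y₀, hy₀, h₀⟩ := (hL _).mp hx
      obtain ⟨y', h1, h2⟩ := hU y₀ hy₀
      have h3 := pair_heckeU_of_isHeckeU hqM x y₀ y' h₀.symm h1
      have h4 := pair_heckeU_of_isHeckeU hqM _ y' y₀ h3 h2
      rw [h₀] at h4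
      have h5 := hinj h4
      exact ⟨congrArg Prod.fst h5, congrArg Prod.snd h5⟩
    | zero => simp
    | add x y _ _ hx hy => exact ⟨by simp [hx.1, hy.1], by simp [hx.2, hy.2]⟩
    | smul c x _ hx => exact ⟨by simp [hx.1], by simp [hx.2]⟩
  let a' : ℕ → ℂ := fun ℓ => if h : ℓ ∈ S then ((a ⟨ℓ, h⟩ : integralClosure ℤ ℂ) : ℂ) else 0
  have ha' : ∀ (ℓ : ℕ) (h : ℓ ∈ S), a' ℓ = ((a ⟨ℓ, h⟩ : integralClosure ℤ ℂ) : ℂ) :=
    fun ℓ h => dif_pos h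
  have hv1 : ∀ (ℓ : ℕ) (hℓ : ℓ ∈ S),
      CuspForm.heckeTLin 2 (hS ℓ hℓ).1 (hS ℓ hℓ).2 v.1 = a' ℓ • v.1 := by
    intro ℓ hℓ
    rw [ha' ℓ hℓ]
    exact congrArg Prod.fst (hva ⟨ℓ, hℓ⟩).1
  have hv2 : ∀ (ℓ : ℕ) (hℓ : ℓ ∈ S),
      CuspForm.heckeTLin 2 (hS ℓ hℓ).1 (hS ℓ hℓ).2 v.2 = a' ℓ • v.2 := by
    intro ℓ hℓ
    rw [ha' ℓ hℓ]
    exact congrArg Prod.snd (hva ⟨ℓ, hℓ⟩).1
  obtain ⟨w₀, hw₀, hw₀T, hw₀U⟩ : ∃ w₀ : CuspForm (Gamma0 M) 2, w₀ ≠ 0 ∧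
      (∀ (ℓ : ℕ) (hℓ : ℓ ∈ S),
        CuspForm.heckeTLin 2 (hS ℓ hℓ).1 (hS ℓ hℓ).2 w₀ = a' ℓ • w₀) ∧
      CuspForm.heckeULin 2 hqM (CuspForm.heckeULin 2 hqM w₀) = w₀ := by
    by_cases h1 : v.1 = 0
    · refine ⟨v.2, fun h2 => hv0 (Prod.ext h1 h2), hv2, (hUU v hvspan).2⟩
    · exact ⟨v.1, h1, hv1, (hUU v hvspan).1⟩
  obtain ⟨g, hg, hgT, hgU⟩ := exists_normalizedEigenform_of_partial hq hqM S hS a' w₀ hw₀ hw₀T hw₀U
  refine ⟨g, 𝔪', hg, hmax, hpm, fun ℓ hℓ => ⟨a ⟨ℓ, hℓ⟩, ?_, (hva ⟨ℓ, hℓ⟩).2⟩, hgU⟩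
  rw [hgT ℓ hℓ, ha' ℓ hℓ]

end

end Fermat.Agent.S41.EP
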