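import Fermat.Agent.S41.Defs

/-!
# S41: operators given by finite families of matrices, and the transfer formula
-/

set_option autoImplicit false

open Matrix Matrix.SpecialLinearGroup CongruenceSubgroup OnePoint
open scoped MatrixGroups

namespace Fermat.Agent.S41

noncomputable section

variable {A : Type*} [AddCommGroup A] {Γ Γ' : Subgroup SL(2, ℤ)} {ι : Type*} [Fintype ι]

/-- transfer data for the family `δ`, from `Γ'` to `Γ`, at `γ`. -/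
def IsTransfer (Γ' : Subgroup SL(2, ℤ)) (δ : ι → GL (Fin 2) ℚ) (γ : SL(2, ℤ)) (σ : Equiv.Perm ι)
    (c : ι → Γ') : Prop :=
  ∀ x, δ x * mapGL ℚ γ = mapGL ℚ (c x : SL(2, ℤ)) * δ (σ x)

theorem sum_pull_apply (δ : ι → GL (Fin 2) ℚ) (u : OnePoint ℚ → A) (s : OnePoint ℚ) :
    (∑ x, pull A (δ x)) u s = ∑ x, u (δ x • s) := by
  rw [LinearMap.sum_apply, Finset.sum_apply]
  rfl

/-- telescoping -/
theorem sum_pull_sub {δ : ι → GL (Fin 2) ℚ} {γ : SL(2, ℤ)} {σ : Equiv.Perm ι} {c : ι → Γ'}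
    (h : IsTransfer Γ' δ γ σ c) (u : Symb Γ' A) (s : OnePoint ℚ) :
    (∑ x, pull A (δ x)) u.1 (mapGL ℚ γ • s) - (∑ x, pull A (δ x)) u.1 s =
      ∑ x, (bd Γ' A u : Additive Γ' →+ A) (Additive.ofMul (c x)) := by
  rw [sum_pull_apply, sum_pull_apply, ← Equiv.sum_comp σ (fun x => u.1 (δ x • s)),
    ← Finset.sum_sub_distrib]
  refine Finset.sum_congr rfl fun x _ => ?_
  rw [bd_apply u (c x) (δ (σ x) • s), ← mul_smul, ← mul_smul, h x]

theorem isOp_sum_pull (δ : ι → GL (Fin 2) ℚ)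
    (h : ∀ γ ∈ Γ, ∃ (σ : Equiv.Perm ι) (c : ι → Γ'), IsTransfer Γ' δ γ σ c) :
    IsOp (A := A) Γ' Γ (∑ x, pull A (δ x)) := by
  constructor
  · intro u hu γ hγ s t
    obtain ⟨σ, c, hc⟩ := h γ hγ
    rw [sum_pull_sub hc ⟨u, hu⟩ s, sum_pull_sub hc ⟨u, hu⟩ t]
  · intro u hu γ hγ s
    obtain ⟨σ, c, hc⟩ := h γ hγ
    have h1 := sum_pull_sub hc ⟨u, Inv_le_Symb hu⟩ s
    have h2 : bd Γ' A ⟨u, Inv_le_Symb hu⟩ = 0 := (bd_eq_zero_iff _).2 hu
    rw [h2] at h1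
    simpa [sub_eq_zero] using h1

/-- **transfer formula** for the descent of a family operator. -/
theorem opH_sum_pull_apply (δ : ι → GL (Fin 2) ℚ)
    (h : IsOp (A := A) Γ' Γ (∑ x, pull A (δ x))) (φ : H Γ' A) (γ : Γ) (σ : Equiv.Perm ι)
    (c : ι → Γ') (hc : IsTransfer Γ' δ (γ : SL(2, ℤ)) σ c) :
    (opH Γ' Γ (∑ x, pull A (δ x)) φ : Additive Γ →+ A) (Additive.ofMul γ) =
      ∑ x, (φ : Additive Γ' →+ A) (Additive.ofMul (c x)) := by
  obtain ⟨u, rfl⟩ := bd_surjective φ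
  rw [opH_bd h, bd_apply _ γ ∞]
  exact sum_pull_sub hc u ∞

end

end Fermat.Agent.S41
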