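import Fermat.Agent.S41.EP.Defs
import Fermat.Prelude.Def_FLTPrelim_Modularity

/-!
# S41, end points: the two interface statements (as `Prop`s; proofs in `EP/In.lean`, `EP/Out.lean`)
-/

set_option autoImplicit false

open CongruenceSubgroup ModularForm ModularCurve.Period ModularFormClass
open scoped MatrixGroups

namespace Fermat.Agent.S41.EP

/-- **(P-IN)**: a normalised eigenform `f` of level `N` whose eigenvalues `a_ℓ(f)`, `ℓ ∈ S`, are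
congruent to integers `θ ℓ` modulo a maximal ideal `𝔪 ∋ p` gives a parabolic class
`x : Γ₀(N) → ℤ`, not divisible by `p`, with `T_ℓ x ≡ θ ℓ • x mod p`. -/
def InStatement : Prop :=
  ∀ {N p : ℕ} [NeZero N], p.Prime → ∀ (f : CuspForm (Gamma0 N) 2) (𝔪 : Ideal (integralClosure ℤ ℂ)),
    f.IsNormalizedEigenform → 𝔪.IsMaximal → (p : integralClosure ℤ ℂ) ∈ 𝔪 →
    ∀ (S : Set ℕ) (θ : ℕ → ℤ), (∀ ℓ ∈ S, ℓ.Prime ∧ ¬ ℓ ∣ N) →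
    (∀ ℓ ∈ S, ∃ a : integralClosure ℤ ℂ, (a : ℂ) = qCoeff f ℓ ∧
      a - ((θ ℓ : ℤ) : integralClosure ℤ ℂ) ∈ 𝔪) →
    ∃ x : Additive (Gamma0 N) →+ ℤ, IsParabolicHom (Gamma0 N) x ∧
      (¬ ∃ x' : Additive (Gamma0 N) →+ ℤ, x = (p : ℤ) • x') ∧
      ∀ ℓ ∈ S, ∀ [NeZero ℓ] (x₁ : Additive (Gamma0 N) →+ ℤ), IsHeckeT N ℓ x x₁ →
        ∃ x₂ : Additive (Gamma0 N) →+ ℤ, x₁ - θ ℓ • x = (p : ℤ) • x₂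

/-- **(P-OUT)**: a lattice `Λ` of parabolic classes of level `M`, stable under the `T_ℓ`, `ℓ ∈ S`,
on which `U_q ^ 2 = 1`, and a class `y ∈ Λ ∖ pΛ` with `T_ℓ y ≡ θ ℓ • y mod pΛ` give a normalised
eigenform `g` of level `M` with `a_q(g)^2 = 1` and `a_ℓ(g) ≡ θ ℓ` modulo a maximal ideal
`𝔪' ∋ p`. -/
def OutStatement : Prop :=
  ∀ {M p q : ℕ} [NeZero M] [NeZero q], p.Prime → q.Prime → q ∣ M →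
    ∀ (S : Set ℕ) (θ : ℕ → ℤ), (∀ ℓ ∈ S, ℓ.Prime ∧ ¬ ℓ ∣ M) →
    ∀ (Λ : AddSubgroup (Additive (Gamma0 M) →+ ℤ)),
    (∀ y ∈ Λ, IsParabolicHom (Gamma0 M) y) →
    (∀ ℓ ∈ S, ∀ [NeZero ℓ], ∀ y ∈ Λ, ∃ y' ∈ Λ, IsHeckeT M ℓ y y') →
    (∀ y ∈ Λ, ∃ y' : Additive (Gamma0 M) →+ ℤ, IsHeckeU M q y y' ∧ IsHeckeU M q y' y) →
    ∀ y ∈ Λ, (¬ ∃ y' ∈ Λ, y = (p : ℤ) • y') →
    (∀ ℓ ∈ S, ∀ [NeZero ℓ], ∃ y₁ ∈ Λ, ∃ y₂ ∈ Λ, IsHeckeT M ℓ y y₁ ∧ y₁ - θ ℓ • y = (p : ℤ) • y₂) →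
    ∃ (g : CuspForm (Gamma0 M) 2) (𝔪' : Ideal (integralClosure ℤ ℂ)),
      g.IsNormalizedEigenform ∧ 𝔪'.IsMaximal ∧ (p : integralClosure ℤ ℂ) ∈ 𝔪' ∧
      (∀ ℓ ∈ S, ∃ a : integralClosure ℤ ℂ, (a : ℂ) = qCoeff g ℓ ∧
        a - ((θ ℓ : ℤ) : integralClosure ℤ ℂ) ∈ 𝔪') ∧
      qCoeff g q ^ 2 = 1

end Fermat.Agent.S41.EP
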